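/-
P-CFT / FIELD-DICT, row 983 GC-ARITH (helper44): `IndexArithStatement`.

A number field `L ≤ ℚ̄` containing `μ_p`, `p` odd, is totally complex:
`[G_ℚ : G_L] = [L : ℚ] = 2 · #{infinite places}`.
-/
import Fermat.Agent.H76.Cft.FieldDictInterfaces

set_option autoImplicit false
set_option linter.style.haveILetI false

open NumberField

namespace Fermat.Agent.H44.FieldDict

open Fermat.Agent.H54.Cft

/-- **[GC-ARITH]** -/
theorem indexArith : Fermat.Agent.H76.Cft.IndexArithStatement := by
  intro p _ hp2 L _ hμ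
  haveI : IsGalois ℚ (AlgebraicClosure ℚ) := by
    have h : (DivisionRing.toRatAlgebra : Algebra ℚ (AlgebraicClosure ℚ)) =
        AlgebraicClosure.instAlgebra ℚ := Subsingleton.elim _ _
    rw [h]
    infer_instance
  have hp : p.Prime := Fact.out
  have h2p : 2 < p := lt_of_le_of_ne hp.two_le (Ne.symm hp2)
  haveI : NeZero (p : AlgebraicClosure ℚ) := ⟨by exact_mod_cast hp.ne_zero⟩
  obtain ⟨ω, hω⟩ := HasEnoughRootsOfUnity.exists_primitiveRoot (AlgebraicClosure ℚ) p
  have hωL : ω ∈ L := hμ ω hω.pow_eq_one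
  have hζ : IsPrimitiveRoot (⟨ω, hωL⟩ : L) p :=
    IsPrimitiveRoot.of_map_of_injective (f := algebraMap L (AlgebraicClosure ℚ)) hω
      (FaithfulSMul.algebraMap_injective L (AlgebraicClosure ℚ))
  have hr1 : InfinitePlace.nrRealPlaces L = 0 :=
    NumberField.InfinitePlace.IsPrimitiveRoot.nrRealPlaces_eq_zero_of_two_lt h2p hζ
  have h1 : Module.finrank ℚ L = L.fixingSubgroup.index :=
    IntermediateField.finrank_eq_fixingSubgroup_index (L := L)
  have h2 : InfinitePlace.nrRealPlaces L + 2 * InfinitePlace.nrComplexPlaces L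
      = Module.finrank ℚ L := InfinitePlace.card_add_two_mul_card_eq_rank L
  have h3 : Fintype.card (InfinitePlace L)
      = InfinitePlace.nrRealPlaces L + InfinitePlace.nrComplexPlaces L :=
    InfinitePlace.card_eq_nrRealPlaces_add_nrComplexPlaces L
  rw [← h1, ← h2, h3, hr1, zero_add, zero_add]

end Fermat.Agent.H44.FieldDict
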